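import Fermat.Agent.S37.H518.Charts
import Fermat.Agent.S18.H504.ConstFree
import Fermat.Agent.Lib.RR.H560.Hpd
import Fermat.Agent.Lib.RR.Riemann

/-!
# S37 / node_rim (helper459): the fields `P_unif`, `P_sep` of `H518.Chart` (generic fibre)

Characteristic-free function-field statements (`K` algebraically closed, `F` finite over `K(x)`,
`x` transcendental), proved from Riemann's theorem (`Lib/RR`):

* `exists_integral_uniformizer` : for a place `P` with `x` regular at `P` there is `w` with
  `ord_P w = 1` which is regular at every place where `x` is regular;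
* `exists_integral_separator`   : for `P ≠ P'` (both with `x` regular) there is `s`, regular where
  `x` is regular, with `s(P') = 0`, `s(P) ≠ 0`;
* `isIntegral_of_forall_ord_nonneg` : a function regular at all places where `x` is regular is
  integral over `K[x]`.

Chart level (`H518` language; `B ⊆ V` chart algebra, `x ∈ B`):
`P_unif_of_scaling`, `P_sep_of_scaling` give the fields `P_unif`, `P_sep` of `H518.Chart` from the
SCALING hypothesis "every `f` integral over `L[ι x]` has a nonzero constant multiple in `ι(B)`".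
-/

set_option autoImplicit false

noncomputable section

namespace Fermat.Agent.S37.H459

open AlgebraicCurve IntermediateField Fermat.Agent.S24.H504 Fermat.Agent.S37.H518
open Fermat.Agent.Lib.RR

section Generic

variable {K F : Type*} [Field K] [Field F] [Algebra K F] [IsAlgClosed K]

/-- The pole divisor of `x` vanishes at places where `x` is regular. -/
theorem poleD_eq_zero_of_ord_nonneg {x : F} (hx : Transcendental K x)
    [FiniteDimensional K⟮x⟯ F] {v : Place K F} (hv : 0 ≤ v.ord x) :
    H560.poleD x hx x v = 0 := by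
  rw [H560.poleD_apply]
  omega

/-- There are `m` and the divisor `E = m (x)_∞` such that `ℓ(D) = deg D + 1 - g` for every `D`
of degree `≥ deg E - 2`.  Technical core of the two lemmas below. -/
theorem exists_large_poleD {x : F} (hx : Transcendental K x) [FiniteDimensional K⟮x⟯ F] :
    haveI : FF1 K F := H560.ff1 x hx
    ∃ E : Divisor K F, (∀ v : Place K F, 0 ≤ v.ord x → E v = 0) ∧
      ∀ D : Divisor K F, Divisor.degree E - 2 ≤ Divisor.degree D →
        (ell D : ℤ) = Divisor.degree D + 1 - (genusR K F : ℤ) := by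
  haveI : FF1 K F := H560.ff1 x hx
  obtain ⟨c, hc⟩ := exists_degree_bound (K := K) (F := F)
  have hn : (1 : ℤ) ≤ Divisor.degree (H560.poleD x hx x) := by
    rw [H560.degree_poleD x hx x hx]
    have : 0 < Module.finrank K⟮x⟯ F := Module.finrank_pos
    exact_mod_cast this
  refine ⟨(c + 2).toNat • H560.poleD x hx x, fun v hv => ?_, fun D hD => hc D ?_⟩
  · rw [Finsupp.smul_apply, poleD_eq_zero_of_ord_nonneg hx hv, smul_zero]
  · rw [map_nsmul, nsmul_eq_mul] at hD
    have h1 : c + 2 ≤ ((c + 2).toNat : ℤ) := Int.self_le_toNat _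
    have h2 : (0 : ℤ) ≤ ((c + 2).toNat : ℤ) := Int.natCast_nonneg _
    nlinarith

/-- **Local uniformisers in the chart.**  If `x` is regular at `P`, some function regular at all
places where `x` is regular has a simple zero at `P`. -/
theorem exists_integral_uniformizer {x : F} (hx : Transcendental K x)
    [FiniteDimensional K⟮x⟯ F] (P : Place K F) (hP : 0 ≤ P.ord x) :
    ∃ w : F, P.ord w = 1 ∧ ∀ v : Place K F, 0 ≤ v.ord x → 0 ≤ v.ord w := by
  classical
  haveI : FF1 K F := H560.ff1 x hx
  obtain ⟨E, hE, hell⟩ := exists_large_poleD (K := K) (F := F) hx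
  have hdegP : Divisor.degree (prim P) = 1 := degree_prim P (deg_eq_one P)
  set D₁ : Divisor K F := E - prim P with hD₁
  set D₂ : Divisor K F := E - prim P - prim P with hD₂
  have hd₁ : Divisor.degree D₁ = Divisor.degree E - 1 := by rw [hD₁, map_sub, hdegP]
  have hd₂ : Divisor.degree D₂ = Divisor.degree E - 2 := by
    rw [hD₂, map_sub, map_sub, hdegP]; ring
  have hl₁ := hell D₁ (by rw [hd₁]; omega)
  have hl₂ := hell D₂ (by rw [hd₂])
  have hlt : ell D₂ < ell D₁ := by
    have : (ell D₂ : ℤ) < ell D₁ := by rw [hl₁, hl₂, hd₁, hd₂]; omega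
    exact_mod_cast this
  have hPP : prim P P = 1 := by simp [prim]
  -- an element of `L(D₁) \ L(D₂)`
  have hex : ∃ w ∈ riemannRochSpace D₁, w ∉ riemannRochSpace D₂ := by
    by_contra hcon
    push Not at hcon
    have hle : riemannRochSpace D₁ ≤ riemannRochSpace D₂ := fun w hw => hcon w hw
    have := Submodule.finrank_mono hle
    unfold ell at hlt
    omega
  obtain ⟨w, hw₁, hw₂⟩ := hex
  have hw0 : w ≠ 0 := fun h => hw₂ (h ▸ Submodule.zero_mem _)
  rw [mem_L_iff] at hw₁ hw₂
  have hw₁' : ∀ v : Place K F, -D₁ v ≤ v.ord w := fun v => (hw₁ v).resolve_left hw0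
  push Not at hw₂
  obtain ⟨v₀, -, hv₀⟩ := hw₂
  have hv₀P : v₀ = P := by
    by_contra hne
    have h1 := hw₁' v₀
    have e : D₂ v₀ = D₁ v₀ := by
      rw [hD₂, hD₁, Finsupp.sub_apply, prim_apply_of_ne hne, sub_zero]
    rw [e] at hv₀
    omega
  subst hv₀P
  have hEP : E v₀ = 0 := hE v₀ hP
  have e₁ : D₁ v₀ = -1 := by rw [hD₁, Finsupp.sub_apply, hEP, hPP]; ring
  have e₂ : D₂ v₀ = -2 := by
    rw [hD₂, Finsupp.sub_apply, Finsupp.sub_apply, hEP, hPP]; ring
  refine ⟨w, ?_, fun v hv => ?_⟩
  · have h1 := hw₁' v₀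
    rw [e₁] at h1
    rw [e₂] at hv₀
    omega
  · have h1 := hw₁' v
    by_cases hvP : v = v₀
    · subst hvP
      rw [e₁] at h1
      omega
    · have e : D₁ v = 0 := by
        rw [hD₁, Finsupp.sub_apply, prim_apply_of_ne hvP, hE v hv, sub_zero]
      rw [e] at h1
      omega

/-- **Separation in the chart.**  If `x` is regular at `P ≠ P'`, some function regular at all
places where `x` is regular vanishes at `P'` and not at `P`. -/
theorem exists_integral_separator {x : F} (hx : Transcendental K x)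
    [FiniteDimensional K⟮x⟯ F] (P P' : Place K F) (hP : 0 ≤ P.ord x) (hP' : 0 ≤ P'.ord x)
    (hne : P ≠ P') :
    ∃ s : F, s ≠ 0 ∧ P.ord s = 0 ∧ 0 < P'.ord s ∧
      ∀ v : Place K F, 0 ≤ v.ord x → 0 ≤ v.ord s := by
  classical
  haveI : FF1 K F := H560.ff1 x hx
  obtain ⟨E, hE, hell⟩ := exists_large_poleD (K := K) (F := F) hx
  have hdegP : Divisor.degree (prim P) = 1 := degree_prim P (deg_eq_one P)
  have hdegP' : Divisor.degree (prim P') = 1 := degree_prim P' (deg_eq_one P')
  set D₁ : Divisor K F := E - prim P' with hD₁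
  set D₂ : Divisor K F := E - prim P' - prim P with hD₂
  have hd₁ : Divisor.degree D₁ = Divisor.degree E - 1 := by rw [hD₁, map_sub, hdegP']
  have hd₂ : Divisor.degree D₂ = Divisor.degree E - 2 := by
    rw [hD₂, map_sub, map_sub, hdegP, hdegP']; ring
  have hl₁ := hell D₁ (by rw [hd₁]; omega)
  have hl₂ := hell D₂ (by rw [hd₂])
  have hlt : ell D₂ < ell D₁ := by
    have : (ell D₂ : ℤ) < ell D₁ := by rw [hl₁, hl₂, hd₁, hd₂]; omega
    exact_mod_cast this
  have hPP : prim P P = 1 := by simp [prim]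
  have hP'P' : prim P' P' = 1 := by simp [prim]
  have hP'P : prim P' P = 0 := prim_apply_of_ne hne
  have hPP' : prim P P' = 0 := prim_apply_of_ne (Ne.symm hne)
  have hex : ∃ w ∈ riemannRochSpace D₁, w ∉ riemannRochSpace D₂ := by
    by_contra hcon
    push Not at hcon
    have hle : riemannRochSpace D₁ ≤ riemannRochSpace D₂ := fun w hw => hcon w hw
    have := Submodule.finrank_mono hle
    unfold ell at hlt
    omega
  obtain ⟨s, hs₁, hs₂⟩ := hex
  have hs0 : s ≠ 0 := fun h => hs₂ (h ▸ Submodule.zero_mem _)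
  rw [mem_L_iff] at hs₁ hs₂
  have hs₁' : ∀ v : Place K F, -D₁ v ≤ v.ord s := fun v => (hs₁ v).resolve_left hs0
  push Not at hs₂
  obtain ⟨v₀, -, hv₀⟩ := hs₂
  have hv₀P : v₀ = P := by
    by_contra hne'
    have h1 := hs₁' v₀
    have e : D₂ v₀ = D₁ v₀ := by
      rw [hD₂, Finsupp.sub_apply, prim_apply_of_ne hne', sub_zero]
    rw [e] at hv₀
    omega
  subst hv₀P
  have e₁ : D₁ v₀ = 0 := by rw [hD₁, Finsupp.sub_apply, hE v₀ hP, hP'P]; ring
  have e₂ : D₂ v₀ = -1 := by
    rw [hD₂, Finsupp.sub_apply, Finsupp.sub_apply, hE v₀ hP, hP'P, hPP]; ring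
  have e₁' : D₁ P' = -1 := by rw [hD₁, Finsupp.sub_apply, hE P' hP', hP'P']; ring
  refine ⟨s, hs0, ?_, ?_, fun v hv => ?_⟩
  · have h1 := hs₁' v₀
    rw [e₁] at h1
    rw [e₂] at hv₀
    omega
  · have h1 := hs₁' P'
    rw [e₁'] at h1
    omega
  · have h1 := hs₁' v
    by_cases hvP : v = P'
    · subst hvP
      rw [e₁'] at h1
      omega
    · have e : D₁ v = 0 := by
        rw [hD₁, Finsupp.sub_apply, prim_apply_of_ne hvP, hE v hv, sub_zero]
      rw [e] at h1
      omega

omit [IsAlgClosed K] in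
/-- **Regular on the chart ⟹ integral.**  A function which is regular at every place at which
`x` is regular is integral over `K[x]` (characteristic free). -/
theorem isIntegral_of_forall_ord_nonneg {x : F} (hx : Transcendental K x)
    [FiniteDimensional K⟮x⟯ F] {f : F}
    (hf : ∀ v : Place K F, 0 ≤ v.ord x → 0 ≤ v.ord f) :
    IsIntegral (Algebra.adjoin K {x}) f := by
  classical
  set R : Subring F := (integralClosure (Algebra.adjoin K {x}) F).toSubring with hR
  by_contra hfint
  have hfR : f ∉ R := fun h => hfint h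
  haveI : IsIntegrallyClosedIn R F := by
    rw [Subring.isIntegrallyClosedIn_iff]
    intro y hy
    have hy' : IsIntegral (integralClosure (Algebra.adjoin K {x}) F) y := hy
    exact isIntegral_trans (A := integralClosure (Algebra.adjoin K {x}) F) y hy'
  obtain ⟨O, hRO, hfO⟩ := Subring.exists_le_valuationSubring_of_isIntegrallyClosedIn hfR
  have hadj : ∀ y ∈ Algebra.adjoin K {x}, y ∈ O := fun y hy =>
    hRO (show y ∈ integralClosure (Algebra.adjoin K {x}) F from
      (isIntegral_algebraMap (R := Algebra.adjoin K {x}) (x := ⟨y, hy⟩)))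
  have hK : ∀ a : K, algebraMap K F a ∈ O := fun a =>
    hadj _ (Subalgebra.algebraMap_mem _ a)
  have hO : O ≠ ⊤ := fun h => hfO (h ▸ ValuationSubring.mem_top f)
  obtain ⟨v, hv⟩ := Fermat.Agent.S18.H504.exists_place_eq hx O hK hO
  have hxv : 0 ≤ v.ord x := by
    rw [← mem_iff_ord_nonneg', hv]
    exact hadj x (Algebra.self_mem_adjoin_singleton K x)
  have := hf v hxv
  rw [← mem_iff_ord_nonneg', hv] at this
  exact hfO this

end Generic

section Chart

variable {L : Type*} [Field L] {A : ValuationSubring L} {k : Type*} [Field k]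
variable {F : Type*} [Field F] [Algebra L F] {Fk : Type*} [Field Fk] [Algebra k Fk]
variable {V : Type*} [CommRing V] [Algebra A V]
variable {ι : V →+* F} [IsAlgClosed L]

/-- **Field `P_unif` of `H518.Chart`** from the scaling hypothesis. -/
theorem P_unif_of_scaling {B : Subalgebra A V} {x : V} (hx : x ∈ B)
    (hxt : Transcendental L (ι x)) (hfin : FiniteDimensional L⟮ι x⟯ F)
    (hSC : ∀ f : F, IsIntegral (Algebra.adjoin L {ι x}) f →
      ∃ c : L, c ≠ 0 ∧ ∃ b ∈ B, ι b = algebraMap L F c * f)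
    (P : Place L F) (hP : PC ι B P) : ∃ w ∈ B, P.ord (ι w) = 1 := by
  have := hfin
  obtain ⟨w, hw, hwreg⟩ := exists_integral_uniformizer hxt P (PC.ord_nonneg hP hx)
  obtain ⟨c, hc, b, hb, hbw⟩ := hSC w (isIntegral_of_forall_ord_nonneg hxt hwreg)
  refine ⟨b, hb, ?_⟩
  have hw0 : w ≠ 0 := Fermat.Agent.S24.H504.ne_zero_of_ord_ne_zero P (by omega)
  have hc0 : algebraMap L F c ≠ 0 := by
    rwa [Ne, map_eq_zero_iff _ (algebraMap L F).injective]
  rw [hbw, P.ord_mul hc0 hw0, Fermat.Agent.S24.H504.ord_algebraMap, hw, zero_add]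

/-- **Field `P_sep` of `H518.Chart`** from the scaling hypothesis. -/
theorem P_sep_of_scaling {B : Subalgebra A V} {x : V} (hx : x ∈ B)
    (hxt : Transcendental L (ι x)) (hfin : FiniteDimensional L⟮ι x⟯ F)
    (hSC : ∀ f : F, IsIntegral (Algebra.adjoin L {ι x}) f →
      ∃ c : L, c ≠ 0 ∧ ∃ b ∈ B, ι b = algebraMap L F c * f)
    (P P' : Place L F) (hP : PC ι B P) (hP' : PC ι B P') (hne : P ≠ P') :
    ∃ s ∈ B, ¬ InMax P (ι s) ∧ InMax P' (ι s) := by
  have := hfin
  obtain ⟨s, hs0, hsP, hsP', hsreg⟩ := exists_integral_separator hxt P P'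
    (PC.ord_nonneg hP hx) (PC.ord_nonneg hP' hx) hne
  obtain ⟨c, hc, b, hb, hbs⟩ := hSC s (isIntegral_of_forall_ord_nonneg hxt hsreg)
  have hc0 : algebraMap L F c ≠ 0 := by
    rwa [Ne, map_eq_zero_iff _ (algebraMap L F).injective]
  refine ⟨b, hb, ?_, ?_⟩
  · rw [hbs]
    refine not_inMax_of_ord_eq_zero (mul_ne_zero hc0 hs0) ?_
    rw [P.ord_mul hc0 hs0, Fermat.Agent.S24.H504.ord_algebraMap, hsP, zero_add]
  · rw [hbs]
    right
    rw [P'.ord_mul hc0 hs0, Fermat.Agent.S24.H504.ord_algebraMap, zero_add]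
    exact hsP'

end Chart

end Fermat.Agent.S37.H459
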