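import Fermat.Agent.S37.H518.Charts
import Fermat.Agent.S18.H504.ConstFree

/-!
# S37 / node_rim (helper459): the field `exists_red` of `H518.Chart` from `ker` ALONE

Abstract setting of `H518` (`A ⊆ L` valuation ring, `π : A → k`, `ι : V → F`, `ρ : V → Fk`,
chart algebra `B ⊆ V`).  If the kernel of the reduction on the chart is `𝔪 B` (field `ker` of
`H518.Chart`, the q-expansion principle) and `Fk` is a function field of one variable over `k`
(finite over `k(ρ x)` for some `x ∈ B` with `ρ x` transcendental), then every place `P` of `F`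
centred on the chart has a reduction `Q` on the chart:

    theorem exists_red_of_ker :
      PC ι B P → ∃ Q : Place k Fk, QC ρ B Q ∧ RedTo π ι ρ B P Q

No normality of the special fibre is used: `{ρ b | b ∈ B, b(P) = 0}` is a proper ideal of `ρ(B)`
(by `ker`), Chevalley's theorem (`Ideal.image_subset_nonunits_valuationSubring`) gives a valuation
ring of `Fk` centred on it, and every nontrivial valuation ring of a function field of one
variable containing the constants is a place (`S18.H504.exists_place_eq`, characteristic free).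
-/

set_option autoImplicit false

namespace Fermat.Agent.S37.H459

open AlgebraicCurve IntermediateField Fermat.Agent.S24.H504 Fermat.Agent.S37.H518

variable {L : Type*} [Field L] {A : ValuationSubring L} {k : Type*} [Field k]
variable {F : Type*} [Field F] [Algebra L F] {Fk : Type*} [Field Fk] [Algebra k Fk]
variable {V : Type*} [CommRing V] [Algebra A V]
variable {π : A →+* k} {ι : V →+* F} {ρ : V →+* Fk}

/-- membership in the maximal ideal of a place, in terms of `nonunits` -/
theorem inMax_of_mem_nonunits {K' F' : Type*} [Field K'] [Field F'] [Algebra K' F']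
    (v : Place K' F') {f : F'} (hf : f ∈ v.toValuationSubring.nonunits) : InMax v f := by
  have hmem : f ∈ v.toValuationSubring := ValuationSubring.nonunits_le hf
  rw [inMax_iff_mem_maximalIdeal (⟨f, hmem⟩ : v.toValuationSubring), IsLocalRing.mem_maximalIdeal]
  exact (ValuationSubring.mem_nonunits_iff_exists_mem_maximalIdeal.mp hf).choose_spec

/-- The reductions of the chart functions vanishing at `P` form an ideal of `ρ(B)`. -/
def vanIdeal (ι : V →+* F) (ρ : V →+* Fk) (B : Subalgebra A V) (P : Place L F)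
    (hP : PC ι B P) : Ideal (B.toSubring.map ρ) where
  carrier := {c | ∃ b ∈ B, ρ b = (c : Fk) ∧ InMax P (ι b)}
  add_mem' := by
    rintro c c' ⟨b, hb, hbc, hbP⟩ ⟨b', hb', hbc', hbP'⟩
    refine ⟨b + b', B.add_mem hb hb', ?_, ?_⟩
    · rw [map_add, hbc, hbc']; rfl
    · rw [map_add]; exact hbP.add hbP'
  zero_mem' := ⟨0, B.zero_mem, by rw [map_zero]; rfl, by rw [map_zero]; exact inMax_zero⟩
  smul_mem' := by
    rintro ⟨c, b₀, hb₀, rfl⟩ c' ⟨b, hb, hbc, hbP⟩
    have hb₀' : b₀ ∈ B := hb₀
    refine ⟨b₀ * b, B.mul_mem hb₀' hb, ?_, ?_⟩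
    · rw [map_mul, hbc]; rfl
    · rw [map_mul]
      exact hbP.mul_left (PC.ord_nonneg hP hb₀')

theorem mem_vanIdeal {B : Subalgebra A V} {P : Place L F} {hP : PC ι B P}
    {c : B.toSubring.map ρ} :
    c ∈ vanIdeal ι ρ B P hP ↔ ∃ b ∈ B, ρ b = (c : Fk) ∧ InMax P (ι b) := Iff.rfl

/-- By the q-expansion principle (`ker`) the ideal `vanIdeal` is proper. -/
theorem vanIdeal_ne_top (hR : RedStr π ι ρ) {B : Subalgebra A V}
    (hker : ∀ b ∈ B, ρ b = 0 → ∃ μ : A, π μ = 0 ∧ ∃ b' ∈ B, b = μ • b')
    {P : Place L F} (hP : PC ι B P) : vanIdeal ι ρ B P hP ≠ ⊤ := by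
  intro htop
  have h1 : (1 : B.toSubring.map ρ) ∈ vanIdeal ι ρ B P hP := by rw [htop]; trivial
  obtain ⟨b, hb, hb1, hbP⟩ := h1
  have hb1' : ρ b = 1 := hb1
  -- `ρ (b - 1) = 0`
  have h0 : ρ (b - 1) = 0 := by rw [map_sub, map_one, hb1', sub_self]
  obtain ⟨μ, hμ, b', hb', hbb'⟩ := hker (b - 1) (B.sub_mem hb B.one_mem) h0
  obtain ⟨a', ha'⟩ := hP b' hb'
  -- value of `μ • b'` at `P` is `μ a'`, value of `b - 1` is `-1`
  have e1 : ι (b - 1) = algebraMap L F (μ : L) * ι b' := by rw [hbb', hR.iota_smul]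
  have hv1 : InMax P (ι (b - 1) - algebraMap L F ((μ : L) * (a' : L))) := by
    rw [e1, map_mul, ← mul_sub]
    exact ha'.mul_left (ordGE_zero_iff.mp (ordGE_algebraMap (v := P) (μ : L)))
  have hv2 : InMax P (ι (b - 1) - algebraMap L F (-1 : L)) := by
    rw [map_sub, map_one, map_neg, map_one]
    have : ι b - 1 - -1 = ι b := by ring
    rw [this]
    exact hbP
  have hval : (μ : L) * (a' : L) = -1 := value_unique hv1 hv2
  -- hence `π μ * π a' = -1 ≠ 0`
  have hval' : μ * a' = -1 := Subtype.ext (by push_cast; exact hval)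
  have : π μ * π a' = -1 := by rw [← map_mul, hval', map_neg, map_one]
  rw [hμ, zero_mul] at this
  have h10 : (1 : k) = 0 := by
    have := congrArg Neg.neg this
    simpa using this.symm
  exact one_ne_zero h10

/-- **`exists_red` from `ker`.**  Every place of the generic fibre centred on the chart has a
reduction on the chart, provided the reduction map on the chart has kernel `𝔪 B` and `Fk` is a
function field of one variable over `k`. -/
theorem exists_red_of_ker (hR : RedStr π ι ρ) {B : Subalgebra A V}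
    (hker : ∀ b ∈ B, ρ b = 0 → ∃ μ : A, π μ = 0 ∧ ∃ b' ∈ B, b = μ • b')
    {x : V} (hx : x ∈ B) (hρx : Transcendental k (ρ x))
    (hfin : FiniteDimensional k⟮ρ x⟯ Fk)
    (P : Place L F) (hP : PC ι B P) :
    ∃ Q : Place k Fk, QC ρ B Q ∧ RedTo π ι ρ B P Q := by
  classical
  obtain ⟨O, hCO, hIO⟩ :=
    Ideal.image_subset_nonunits_valuationSubring (vanIdeal ι ρ B P hP)
      (vanIdeal_ne_top hR hker hP)
  have hρB : ∀ b ∈ B, ρ b ∈ O := fun b hb => hCO ⟨b, hb, rfl⟩
  -- reductions of functions vanishing at `P` are non-units of `O`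
  have hvan : ∀ b ∈ B, InMax P (ι b) → ρ b ∈ O.nonunits := by
    intro b hb hbP
    refine hIO ⟨⟨ρ b, b, hb, rfl⟩, ?_, rfl⟩
    exact ⟨b, hb, rfl, hbP⟩
  -- constants
  have hK : ∀ c : k, algebraMap k Fk c ∈ O := by
    intro c
    obtain ⟨a, rfl⟩ := hR.pi_surj c
    rw [← hR.rho_alg]
    exact hρB _ (B.algebraMap_mem a)
  -- `O` is not the whole field
  have hO : O ≠ ⊤ := by
    intro htop
    obtain ⟨a, ha⟩ := hP x hx
    have hmem : x - algebraMap A V a ∈ B := B.sub_mem hx (B.algebraMap_mem a)
    have hι : ι (x - algebraMap A V a) = ι x - algebraMap L F (a : L) := by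
      rw [map_sub, hR.iota_alg]
    have hnu := hvan _ hmem (by rw [hι]; exact ha)
    have hne : ρ (x - algebraMap A V a) ≠ 0 := by
      intro h0
      rw [map_sub, hR.rho_alg, sub_eq_zero] at h0
      apply hρx
      rw [h0]
      exact isAlgebraic_algebraMap _
    rw [htop] at hnu
    have hu : IsUnit (⟨ρ (x - algebraMap A V a), trivial⟩ : (⊤ : ValuationSubring Fk)) := by
      refine IsUnit.of_mul_eq_one ⟨(ρ (x - algebraMap A V a))⁻¹, trivial⟩ ?_
      ext
      exact mul_inv_cancel₀ hne
    rw [ValuationSubring.mem_nonunits_iff_exists_mem_maximalIdeal] at hnu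
    obtain ⟨h1, h2⟩ := hnu
    exact (IsLocalRing.mem_maximalIdeal _).mp h2 hu
  have := hfin
  obtain ⟨Q, hQ⟩ := Fermat.Agent.S18.H504.exists_place_eq hρx O hK hO
  refine ⟨Q, fun b hb => ?_, fun b hb a ha => ?_⟩
  · rw [← mem_iff_ord_nonneg', hQ]
    exact hρB b hb
  · have hmem : b - algebraMap A V a ∈ B := B.sub_mem hb (B.algebraMap_mem a)
    have hι : ι (b - algebraMap A V a) = ι b - algebraMap L F (a : L) := by
      rw [map_sub, hR.iota_alg]
    have hnu := hvan _ hmem (by rw [hι]; exact ha)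
    rw [map_sub, hR.rho_alg, ← hQ] at hnu
    exact inMax_of_mem_nonunits Q hnu

end Fermat.Agent.S37.H459
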