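import Mathlib
import Fermat.Prelude.Def_ModularCurve_LaurentCoeff

/-!
# S37 / R-b: Laurent series over a completely integrally closed domain

(Verbatim copy, in the namespace `Fermat.Agent.S37.H459.LaurentCIC`, of helper879's
`Fermat/Agent/S37/H879/IntQ.lean` (branch `origin/helper879`), so that `H459/Scaling.lean` does
not depend on a file which is not yet on main.  All credit: helper879.)

`exists_coeffMap_eq_of_mul_pow` : let `ι : R → K` be an injective ring hom into a field such that
`R` is completely integrally closed in `K` (elementwise: `d x ^ i ∈ R` for all `i`, `d ≠ 0`,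
implies `x ∈ R`).  If `f ∈ K((q))` and `d ∈ R((q))`, `d ≠ 0`, satisfy `d f ^ i ∈ R((q))` for all
`i`, then `f ∈ R((q))`.

`exists_coeffMap_eq_of_isIntegral` : consequently an element of the fraction field of `R((q))`
(inside `K((q))`) which is integral over `R((q))` lies in `R((q))`.
(Counterexample without "fraction field": `√(1+q) ∈ ℚ((q))` is integral over `ℤ_(2)((q))`.)
-/

set_option autoImplicit false

noncomputable section

namespace Fermat.Agent.S37.H459.LaurentCIC

open HahnSeries ModularCurve

variable {R K : Type*} [CommRing R] [IsDomain R] [Field K] (ι : R →+* K)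

/-- elementwise complete integral closedness of `ι : R → K` -/
def IsCIC : Prop :=
  ∀ x : K, (∃ d : R, d ≠ 0 ∧ ∀ i : ℕ, ∃ r : R, ι r = ι d * x ^ i) → ∃ r : R, ι r = x

variable {ι}

omit [IsDomain R] in
theorem coeffMap_injective_of_injective (hι : Function.Injective ι) :
    Function.Injective (coeffMap ι) := by
  intro x y h
  ext n
  apply hι
  have := congrArg (fun z : LaurentSeries K => z.coeff n) h
  simpa using this

omit [IsDomain R] in
/-- the range of `coeffMap ι` consists of the series with coefficients in the range of `ι` -/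
theorem mem_range_coeffMap_iff (f : LaurentSeries K) :
    (∃ g : LaurentSeries R, coeffMap ι g = f) ↔ ∀ n, ∃ r : R, ι r = f.coeff n := by
  classical
  constructor
  · rintro ⟨g, rfl⟩ n
    exact ⟨g.coeff n, by simp⟩
  · intro h
    choose c hc using h
    refine ⟨⟨fun n => if f.coeff n = 0 then 0 else c n, ?_⟩, ?_⟩
    · refine f.isPWO_support.mono fun n hn => ?_
      simp only [Function.mem_support, ne_eq] at hn ⊢
      intro h0
      exact hn (by rw [if_pos h0])
    · ext n
      simp only [coeffMap_coeff]
      by_cases h0 : f.coeff n = 0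
      · simp [h0]
      · simp [h0, hc]

theorem leadingCoeff_pow' {S : Type*} [CommRing S] [IsDomain S] (x : LaurentSeries S) (n : ℕ) :
    (x ^ n).leadingCoeff = x.leadingCoeff ^ n := by
  induction n with
  | zero => simp
  | succ n ih => rw [pow_succ, leadingCoeff_mul, ih, pow_succ]

/-- **Complete integral closedness of Laurent series.** -/
theorem exists_coeffMap_eq_of_mul_pow (hι : Function.Injective ι) (hcic : IsCIC ι)
    (f : LaurentSeries K) (d : LaurentSeries R) (hd : d ≠ 0)
    (h : ∀ i : ℕ, ∃ g : LaurentSeries R, coeffMap ι g = coeffMap ι d * f ^ i) :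
    ∃ g : LaurentSeries R, coeffMap ι g = f := by
  classical
  by_contra hf
  rw [mem_range_coeffMap_iff] at hf
  push Not at hf
  -- the first bad coefficient
  have hbdd : ∃ t : ℤ, (¬ ∃ r : R, ι r = f.coeff t) ∧ ∀ n < t, ∃ r : R, ι r = f.coeff n := by
    obtain ⟨n₀, hn₀⟩ := hf
    have hne : f ≠ 0 := by
      rintro rfl
      exact hn₀ 0 (by simp)
    -- bad indices are `≥ order f`
    have hlow : ∀ n, (∀ r : R, ι r ≠ f.coeff n) → f.order ≤ n := by
      intro n hn
      by_contra hlt
      rw [not_le] at hlt
      exact hn 0 (by rw [map_zero, coeff_eq_zero_of_lt_order hlt])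
    -- induction on `n₀ - order f`
    have key : ∀ m : ℕ, ∀ n : ℤ, n - f.order < m → (∀ r : R, ι r ≠ f.coeff n) →
        ∃ t : ℤ, (¬ ∃ r : R, ι r = f.coeff t) ∧ ∀ n < t, ∃ r : R, ι r = f.coeff n := by
      intro m
      induction m with
      | zero =>
        intro n hn hbad
        have := hlow n hbad
        omega
      | succ m ih =>
        intro n hn hbad
        by_cases hall : ∀ n' < n, ∃ r : R, ι r = f.coeff n'
        · exact ⟨n, fun ⟨r, hr⟩ => hbad r hr, hall⟩
        · push Not at hall
          obtain ⟨n', hn', hbad'⟩ := hall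
          exact ih n' (by omega) hbad'
    exact key (n₀ - f.order).toNat.succ n₀ (by omega) hn₀
  obtain ⟨t, ht, hlt⟩ := hbdd
  -- `g₀` = the part of `f` below `t`, `h₁ = f - g₀`
  choose c hc using hlt
  let g₀ : LaurentSeries R :=
    ⟨fun n => if hn : n < t then (if f.coeff n = 0 then 0 else c n hn) else 0, by
      refine f.isPWO_support.mono fun n hn => ?_
      simp only [Function.mem_support, ne_eq] at hn ⊢
      intro h0
      apply hn
      by_cases hnt : n < t
      · rw [dif_pos hnt, if_pos h0]
      · rw [dif_neg hnt]⟩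
  have hg₀ : ∀ n, (coeffMap ι g₀).coeff n = if n < t then f.coeff n else 0 := by
    intro n
    simp only [coeffMap_coeff]
    show ι (if hn : n < t then (if f.coeff n = 0 then 0 else c n hn) else 0) = _
    by_cases hnt : n < t
    · rw [dif_pos hnt, if_pos hnt]
      by_cases h0 : f.coeff n = 0
      · rw [if_pos h0, map_zero, h0]
      · rw [if_neg h0, hc]
    · rw [dif_neg hnt, if_neg hnt, map_zero]
  set h₁ : LaurentSeries K := f - coeffMap ι g₀ with hh₁
  have hh₁coeff : ∀ n, h₁.coeff n = if n < t then 0 else f.coeff n := by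
    intro n
    rw [hh₁, HahnSeries.coeff_sub, hg₀]
    by_cases hnt : n < t
    · rw [if_pos hnt, if_pos hnt, sub_self]
    · rw [if_neg hnt, if_neg hnt, sub_zero]
  have hft : f.coeff t ≠ 0 := by
    intro h0
    exact ht ⟨0, by rw [map_zero, h0]⟩
  have hh₁ne : h₁ ≠ 0 := by
    intro h0
    have := hh₁coeff t
    rw [h0, if_neg (lt_irrefl t)] at this
    exact hft this.symm
  have hh₁order : h₁.order = t := by
    apply le_antisymm
    · exact order_le_of_coeff_ne_zero (by rw [hh₁coeff, if_neg (lt_irrefl t)]; exact hft)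
    · by_contra hlt'
      rw [not_le] at hlt'
      have := coeff_order_eq_zero.not.mpr hh₁ne
      rw [hh₁coeff, if_pos hlt'] at this
      exact this rfl
  have hh₁lead : h₁.leadingCoeff = f.coeff t := by
    rw [leadingCoeff_eq, hh₁order, hh₁coeff, if_neg (lt_irrefl t)]
  -- `d * h₁ ^ i` lies in the range
  have hrange : ∀ i : ℕ, ∃ g : LaurentSeries R, coeffMap ι g = coeffMap ι d * h₁ ^ i := by
    intro i
    have hexp : coeffMap ι d * h₁ ^ i = ∑ m ∈ Finset.range (i + 1),
        (coeffMap ι d * f ^ m) * ((-coeffMap ι g₀) ^ (i - m) * (i.choose m : LaurentSeries K)) := by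
      rw [hh₁, sub_eq_add_neg, add_pow, Finset.mul_sum]
      refine Finset.sum_congr rfl fun m _ => ?_
      ring
    choose G hG using h
    refine ⟨∑ m ∈ Finset.range (i + 1), G m * ((-g₀) ^ (i - m) * (i.choose m : LaurentSeries R)),
      ?_⟩
    rw [hexp, map_sum]
    refine Finset.sum_congr rfl fun m _ => ?_
    rw [map_mul, map_mul, map_pow, map_neg, map_natCast, hG]
  -- leading coefficients
  have hdK : coeffMap ι d ≠ 0 := fun h0 =>
    hd (coeffMap_injective_of_injective hι (by rw [h0, map_zero]))
  have hdlead : (coeffMap ι d).leadingCoeff = ι d.leadingCoeff := by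
    have hord : (coeffMap ι d).order = d.order := by
      apply le_antisymm
      · exact order_le_of_coeff_ne_zero (by
          rw [coeffMap_coeff]
          exact fun h0 => coeff_order_eq_zero.not.mpr hd (hι (by rw [h0, map_zero])))
      · by_contra hlt'
        rw [not_le] at hlt'
        have := coeff_order_eq_zero.not.mpr hdK
        rw [coeffMap_coeff, coeff_eq_zero_of_lt_order hlt', map_zero] at this
        exact this rfl
    rw [leadingCoeff_eq, leadingCoeff_eq, hord, coeffMap_coeff]
  apply ht
  apply hcic
  refine ⟨d.leadingCoeff, leadingCoeff_ne_zero.mpr hd, fun i => ?_⟩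
  obtain ⟨g, hg⟩ := hrange i
  refine ⟨g.coeff (d.order + i • t), ?_⟩
  have h1 : (coeffMap ι d * h₁ ^ i).leadingCoeff = ι d.leadingCoeff * f.coeff t ^ i := by
    rw [leadingCoeff_mul, leadingCoeff_pow' h₁ i, hdlead, hh₁lead]
  have h2 : (coeffMap ι d * h₁ ^ i).order = d.order + i • t := by
    have hpow : h₁ ^ i ≠ 0 := pow_ne_zero i hh₁ne
    rw [order_mul_of_ne_zero (mul_ne_zero (leadingCoeff_ne_zero.mpr hdK)
      (leadingCoeff_ne_zero.mpr hpow)), order_pow, hh₁order]
    congr 1
    apply le_antisymm
    · exact order_le_of_coeff_ne_zero (by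
        rw [coeffMap_coeff]
        exact fun h0 => coeff_order_eq_zero.not.mpr hd (hι (by rw [h0, map_zero])))
    · by_contra hlt'
      rw [not_le] at hlt'
      have := coeff_order_eq_zero.not.mpr hdK
      rw [coeffMap_coeff, coeff_eq_zero_of_lt_order hlt', map_zero] at this
      exact this rfl
  rw [← h1, leadingCoeff_eq, h2, ← hg, coeffMap_coeff]

/-- **Integral closedness of `R((q))` in its fraction field inside `K((q))`.** -/
theorem exists_coeffMap_eq_of_isIntegral (hι : Function.Injective ι) (hcic : IsCIC ι)
    (f : LaurentSeries K) (a c : LaurentSeries R) (hc : c ≠ 0)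
    (hfrac : f * coeffMap ι c = coeffMap ι a)
    (hint : IsIntegral (coeffMap ι).range f) :
    ∃ g : LaurentSeries R, coeffMap ι g = f := by
  classical
  obtain ⟨p, hmonic, hp⟩ := hint
  set m := p.natDegree with hm
  refine exists_coeffMap_eq_of_mul_pow hι hcic f (c ^ m) (pow_ne_zero m hc) ?_
  -- `x ^ m` in terms of lower powers
  have hrel : f ^ m = -∑ k ∈ Finset.range m, ((p.coeff k : (coeffMap ι).range) :
      LaurentSeries K) * f ^ k := by
    rw [Polynomial.eval₂_eq_sum_range, Finset.sum_range_succ, ← hm, hmonic.coeff_natDegree,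
      map_one, one_mul] at hp
    exact eq_neg_of_add_eq_zero_right hp
  intro i
  induction i using Nat.strong_induction_on with
  | _ i ih =>
    by_cases hi : i < m
    · refine ⟨c ^ (m - i) * a ^ i, ?_⟩
      rw [map_mul, map_pow, map_pow, map_pow, ← hfrac, mul_pow]
      have : coeffMap ι c ^ m = coeffMap ι c ^ (m - i) * coeffMap ι c ^ i := by
        rw [← _root_.pow_add, Nat.sub_add_cancel hi.le]
      rw [this]
      ring
    · rw [not_lt] at hi
      obtain ⟨e, rfl⟩ := Nat.exists_eq_add_of_le hi
      have hexp : coeffMap ι (c ^ m) * f ^ (m + e) = -∑ k ∈ Finset.range m,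
          ((p.coeff k : (coeffMap ι).range) : LaurentSeries K) *
            (coeffMap ι (c ^ m) * f ^ (k + e)) := by
        rw [_root_.pow_add, hrel, neg_mul, mul_neg, Finset.sum_mul, Finset.mul_sum]
        congr 1
        refine Finset.sum_congr rfl fun k _ => ?_
        rw [_root_.pow_add]
        ring
      have hk : ∀ k ∈ Finset.range m, ∃ g : LaurentSeries R, coeffMap ι g =
          ((p.coeff k : (coeffMap ι).range) : LaurentSeries K) *
            (coeffMap ι (c ^ m) * f ^ (k + e)) := by
        intro k hk
        obtain ⟨g₁, hg₁⟩ := (p.coeff k).2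
        obtain ⟨g₂, hg₂⟩ := ih (k + e) (by have := Finset.mem_range.mp hk; omega)
        exact ⟨g₁ * g₂, by rw [map_mul, hg₁, hg₂]⟩
      choose! G hG using hk
      refine ⟨-∑ k ∈ Finset.range m, G k, ?_⟩
      rw [hexp, map_neg, map_sum]
      congr 1
      exact Finset.sum_congr rfl fun k hk => hG k hk

end Fermat.Agent.S37.H459.LaurentCIC
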