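import Fermat.Agent.S18.H602.DVR
import Fermat.Agent.S37.H459.LaurentCIC

/-!
# S37 / node_rim (helper459): valuation rings of `ℚ̄` over a prime are completely integrally closed

`isCIC_of_liesOverPrime` : for a valuation subring `A ⊆ ℚ̄` over a prime `ℓ`, if `d ≠ 0` in `A`
and `d xⁱ ∈ A` for all `i`, then `x ∈ A` (the value group has rank one).  This is the hypothesis
`IsCIC` of helper879's `exists_coeffMap_eq_of_isIntegral` (helper879) (integral closedness of `A((q))`),
which therefore applies to `A` directly: no descent to a discrete valuation ring is needed.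

Proof: `E = ℚ(x, d)` is a number field, `A ∩ E` is a discrete valuation ring (`S18.H602`), and
`d ∈ ⋂ᵢ 𝔪ⁱ = 0` by Krull's intersection theorem.
-/

set_option autoImplicit false

noncomputable section

namespace Fermat.Agent.S37.H459

open Fermat.Agent.S18.H602 IntermediateField

local notation "Q̄" => AlgebraicClosure ℚ

/-- A noetherian valuation subring is completely integrally closed. -/
theorem mem_of_forall_mul_pow_mem {E : Type*} [Field E] (R : ValuationSubring E)
    [IsNoetherianRing R] {x d : E} (hd : d ≠ 0) (h : ∀ i : ℕ, d * x ^ i ∈ R) : x ∈ R := by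
  by_contra hx
  have hx0 : x ≠ 0 := fun h0 => hx (h0 ▸ R.zero_mem)
  have ht : x⁻¹ ∈ R := (R.mem_or_inv_mem x).resolve_left hx
  set t : R := ⟨x⁻¹, ht⟩ with htdef
  have htm : t ∈ IsLocalRing.maximalIdeal R := by
    rw [IsLocalRing.mem_maximalIdeal, mem_nonunits_iff]
    intro hu
    obtain ⟨s, hs⟩ := hu.exists_right_inv
    have hs' : x⁻¹ * (s : E) = 1 := congrArg Subtype.val hs
    have : (s : E) = x := by
      have := congrArg (fun z => x * z) hs'
      simp only [mul_one] at this
      rw [← mul_assoc, mul_inv_cancel₀ hx0, one_mul] at this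
      exact this
    exact hx (this ▸ s.2)
  have hdR : d ∈ R := by simpa using h 0
  set dR : R := ⟨d, hdR⟩ with hdRdef
  have hmem : ∀ i : ℕ, dR ∈ (IsLocalRing.maximalIdeal R) ^ i := by
    intro i
    have e : dR = (⟨d * x ^ i, h i⟩ : R) * t ^ i := by
      apply Subtype.ext
      show d = d * x ^ i * (x⁻¹) ^ i
      rw [mul_assoc, ← mul_pow, mul_inv_cancel₀ hx0, one_pow, mul_one]
    rw [e]
    exact Ideal.mul_mem_left _ _ (Ideal.pow_mem_pow htm i)
  have hbot : (⨅ i : ℕ, (IsLocalRing.maximalIdeal R) ^ i) = ⊥ :=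
    Ideal.iInf_pow_eq_bot_of_isLocalRing _ (IsLocalRing.maximalIdeal.isMaximal R).ne_top
  have : dR ∈ (⊥ : Ideal R) := by
    rw [← hbot, Ideal.mem_iInf]
    exact hmem
  rw [Ideal.mem_bot] at this
  exact hd (congrArg Subtype.val this)

/-- **A valuation subring of `ℚ̄` over a prime is completely integrally closed.** -/
theorem mem_of_forall_mul_pow_mem_Qbar {ℓ : ℕ} (hℓ : ℓ ≠ 0) (A : ValuationSubring Q̄)
    (hA : (ℓ : Q̄) ∈ A.nonunits) {x d : Q̄} (hd : d ≠ 0) (h : ∀ i : ℕ, d * x ^ i ∈ A) :
    x ∈ A := by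
  classical
  set E : IntermediateField ℚ Q̄ := IntermediateField.adjoin ℚ ({x, d} : Set Q̄) with hE
  haveI : Algebra.IsAlgebraic ℚ Q̄ := AlgebraicClosure.isAlgebraic ℚ
  haveI : FiniteDimensional ℚ E :=
    IntermediateField.finiteDimensional_adjoin
      (fun y _ => (Algebra.IsAlgebraic.isAlgebraic (R := ℚ) y).isIntegral)
  have hxE : x ∈ E := IntermediateField.subset_adjoin ℚ _ (by simp)
  have hdE : d ∈ E := IntermediateField.subset_adjoin ℚ _ (by simp)
  haveI : IsDiscreteValuationRing (RE A E) := isDiscreteValuationRing_RE A E hℓ hA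
  have key : (⟨x, hxE⟩ : E) ∈ RE A E := by
    refine mem_of_forall_mul_pow_mem (RE A E) (d := ⟨d, hdE⟩) ?_ ?_
    · intro h0
      exact hd (congrArg Subtype.val h0)
    · intro i
      rw [mem_RE]
      exact h i
  exact key

/-- `IsCIC` (in helper879's sense) for a valuation subring of `ℚ̄` over a prime. -/
theorem isCIC_of_liesOverPrime {ℓ : ℕ} (hℓ : ℓ ≠ 0) (A : ValuationSubring Q̄)
    (hA : (ℓ : Q̄) ∈ A.nonunits) : Fermat.Agent.S37.H459.LaurentCIC.IsCIC (A.subtype : A →+* Q̄) := by
  rintro x ⟨d, hd, h⟩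
  have hx : x ∈ A := by
    refine mem_of_forall_mul_pow_mem_Qbar hℓ A hA (d := (d : Q̄)) ?_ ?_
    · intro h0
      exact hd (Subtype.ext h0)
    · intro i
      obtain ⟨r, hr⟩ := h i
      have : (r : Q̄) = (d : Q̄) * x ^ i := hr
      rw [← this]
      exact r.2
  exact ⟨⟨x, hx⟩, rfl⟩

end Fermat.Agent.S37.H459
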