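import Mathlib
import Fermat.Prelude.Def_ModularCurve_LaurentCoeff

/-!
# S37 / node_rim (helper459): scaling an integral equation over `L[x]` to one over `A[x]`

`A ⊆ L` a valuation ring, `xA ∈ A((q))`, `fS ∈ L((q))`.  If `fS` is a root of a monic polynomial
with coefficients in `L[x]` (`x` = image of `xA`), then for some `b ≠ 0` in `A` the multiple
`b · fS` is a root of a monic polynomial with coefficients in `A[x]`
(`exists_scaled_integral`; Mathlib `scaleRoots` + common denominators).
-/

set_option autoImplicit false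

noncomputable section

namespace Fermat.Agent.S37.H459

open Polynomial ModularCurve

variable {L : Type*} [Field L] (A : ValuationSubring L)

/-- evaluation `R[X] → R((q))`, `X ↦ x` -/
abbrev evSer {R : Type*} [CommRing R] (x : LaurentSeries R) : R[X] →+* LaurentSeries R :=
  eval₂RingHom (HahnSeries.C : R →+* LaurentSeries R) x

theorem coeffMap_comp_C {R S : Type*} [CommRing R] [CommRing S] (f : R →+* S) :
    (coeffMap f).comp (HahnSeries.C : R →+* LaurentSeries R)
      = (HahnSeries.C : S →+* LaurentSeries S).comp f := by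
  ext a : 1
  simp only [RingHom.comp_apply]
  exact coeffMap_single f 0 a

/-- evaluation commutes with change of coefficients -/
theorem coeffMap_comp_evSer {R S : Type*} [CommRing R] [CommRing S] (f : R →+* S)
    (x : LaurentSeries R) :
    (coeffMap f).comp (evSer x) = (evSer (coeffMap f x)).comp (mapRingHom f) := by
  apply Polynomial.ringHom_ext
  · intro a
    simp only [RingHom.comp_apply, coe_eval₂RingHom, eval₂_C, coe_mapRingHom, Polynomial.map_C]
    exact coeffMap_single f 0 a
  · simp only [RingHom.comp_apply, coe_eval₂RingHom, eval₂_X, coe_mapRingHom, map_X]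

/-- a polynomial over `L` all of whose coefficients lie in `A` comes from `A[X]` -/
theorem mem_range_mapRingHom_of_coeff {g : L[X]} (h : ∀ n, g.coeff n ∈ A) :
    g ∈ Set.range (mapRingHom A.subtype) := by
  have : g ∈ lifts A.subtype := by
    rw [lifts_iff_coeff_lifts]
    intro n
    exact ⟨⟨g.coeff n, h n⟩, rfl⟩
  rw [mem_lifts] at this
  obtain ⟨q, hq⟩ := this
  exact ⟨q, hq⟩

/-- **Scaling.** -/
theorem exists_scaled_integral (xA : LaurentSeries A) (fS : LaurentSeries L)
    (p₀ : L[X][X]) (hp₀ : p₀.Monic)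
    (h0 : eval₂ (evSer (coeffMap A.subtype xA)) fS p₀ = 0) :
    ∃ b : A, b ≠ 0 ∧ ∃ P : A[X][X], P.Monic ∧
      eval₂ ((coeffMap A.subtype).comp (evSer xA)) (HahnSeries.C (b : L) * fS) P = 0 := by
  classical
  set s : Finset L := p₀.coeffs.biUnion (fun g => g.coeffs) with hs
  obtain ⟨b, hb⟩ := IsLocalization.exist_integer_multiples_of_finset (nonZeroDivisors A) s
  have hb0 : (b : A) ≠ 0 := nonZeroDivisors.coe_ne_zero b
  set c : L := ((b : A) : L) with hc
  -- every coefficient of `C c * p₀.coeff i` lies in `A`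
  have hint : ∀ i : ℕ, C c * p₀.coeff i ∈ Set.range (mapRingHom A.subtype) := by
    intro i
    apply mem_range_mapRingHom_of_coeff
    intro n
    rw [coeff_C_mul]
    by_cases h1 : (p₀.coeff i).coeff n = 0
    · rw [h1, mul_zero]; exact A.zero_mem
    · have hmem : (p₀.coeff i).coeff n ∈ s := by
        rw [hs, Finset.mem_biUnion]
        refine ⟨p₀.coeff i, ?_, ?_⟩
        · rw [mem_coeffs_iff]
          refine ⟨i, ?_, rfl⟩
          rw [mem_support_iff]
          intro h2
          rw [h2, coeff_zero] at h1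
          exact h1 rfl
        · rw [mem_coeffs_iff]
          exact ⟨n, mem_support_iff.mpr h1, rfl⟩
      obtain ⟨a, ha⟩ := hb _ hmem
      have : c * (p₀.coeff i).coeff n = (a : L) := by
        rw [show (a : L) = algebraMap A L a from rfl, ha, Algebra.smul_def]
        rfl
      rw [this]
      exact a.2
  have hCc : ∀ k : ℕ, (C c : L[X]) ^ k ∈ Set.range (mapRingHom A.subtype) := by
    intro k
    refine ⟨(Polynomial.C (b : A)) ^ k, ?_⟩
    rw [map_pow, coe_mapRingHom, Polynomial.map_C]
    rfl
  set p₁ : L[X][X] := scaleRoots p₀ (C c) with hp₁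
  have hp₁m : p₁.Monic := (monic_scaleRoots_iff _).mpr hp₀
  have hlift : p₁ ∈ lifts (mapRingHom A.subtype) := by
    rw [lifts_iff_coeff_lifts]
    intro i
    rw [hp₁, coeff_scaleRoots]
    rcases lt_trichotomy i p₀.natDegree with hi | hi | hi
    · have e : p₀.coeff i * C c ^ (p₀.natDegree - i)
          = (C c * p₀.coeff i) * C c ^ (p₀.natDegree - i - 1) := by
        have : p₀.natDegree - i = (p₀.natDegree - i - 1) + 1 := by omega
        conv_lhs => rw [this, pow_succ]
        ring
      rw [e]
      obtain ⟨u, hu⟩ := hint i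
      obtain ⟨w, hw⟩ := hCc (p₀.natDegree - i - 1)
      exact ⟨u * w, by rw [map_mul, hu, hw]⟩
    · rw [hi, Nat.sub_self, pow_zero, mul_one, hp₀.coeff_natDegree]
      exact ⟨1, map_one _⟩
    · rw [coeff_eq_zero_of_natDegree_lt hi, zero_mul]
      exact ⟨0, map_zero _⟩
  obtain ⟨P, hPmap, -, hPm⟩ := lifts_and_natDegree_eq_and_monic hlift hp₁m
  refine ⟨b, hb0, P, hPm, ?_⟩
  rw [coeffMap_comp_evSer, ← eval₂_map, hPmap, hp₁]
  have := scaleRoots_eval₂_eq_zero (evSer (coeffMap A.subtype xA)) (s := C c) h0
  simpa only [coe_eval₂RingHom, eval₂_C] using this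

end Fermat.Agent.S37.H459
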