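import Fermat.Agent.S37.H459.Cic
import Fermat.Agent.S37.H459.ScaleCore
import Fermat.Agent.S37.H459.ChartGen
import Fermat.Agent.S37.H518.Wrap
import Fermat.Agent.S37.H568.ValueGroup
import Fermat.Agent.S37.H448.Gen

/-!
# S37 / node_rim (helper459): the SCALING hypothesis for the modular charts

`A ⊆ ℚ̄` a valuation subring over a prime `ℓ ∤ N`, `π = residue A`, `F = ℚ̄(X₀(N))`,
`V = H518.IntFun A π N` (integral `q`-series of `F` with reduction in `F_k`), `ι = H518.iotaF`.

    theorem scaling_modular (x : IntFun A π N) (f : F)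
        (hf : IsIntegral (Algebra.adjoin ℚ̄ {ι x}) f) :
        ∃ c : ℚ̄, c ≠ 0 ∧ ∃ y : IntFun A π N,
          (eval₂RingHom C x).IsIntegralElem y  ∧  ι y = c • f

i.e. every function integral over `ℚ̄[x]` has a nonzero constant multiple which is an `A`-integral
`q`-series, integral over `A[x]` (so: `B_A ⊗ ℚ̄` is the integral closure of `ℚ̄[x]`, and elements
integral over `A[x]` have `A`-integral `q`-expansions).  This is the hypothesis `hSC` of
`P_unif_of_scaling` / `P_sep_of_scaling` for every chart algebra `B ⊇ {y integral over A[x]}`: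
`P_unif_modular`, `P_sep_modular` below.

Ingredients: `scaleRoots` (ScaleCore), `A` is completely integrally closed (Cic), helper879's
integral closedness of `A((q))` in its fraction field (`exists_coeffMap_eq_of_isIntegral` (helper879)),
helper568's `valueGroupHyp_modular` (every function is a quotient of integral series),
helper448's `reduction_mem_fullC`.
-/

set_option autoImplicit false

noncomputable section

namespace Fermat.Agent.S37.H459

open Polynomial ModularCurve AlgebraicCurve IsLocalRing
open Fermat.Agent.S37.H518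

local notation "Q̄" => AlgebraicClosure ℚ

section

variable (N : ℕ) [NeZero N] (A : ValuationSubring Q̄)

theorem algebraMap_Qbar_eq_C (c : Q̄) :
    algebraMap Q̄ (LaurentSeries Q̄) c = HahnSeries.C c := by
  rw [algebraMap_laurentSeries_eq_single]
  rfl

/-- the evaluation `ℚ̄[X] → F`, `X ↦ ι x`, composed with `F ⊆ ℚ̄((q))` is evaluation at the
series of `x` -/
theorem val_comp_aeval (x : IntFun A (residue A) N) :
    (algebraMap (modularFunctionFieldBar N) (LaurentSeries Q̄)).comp
        (aeval (iotaF A (residue A) N x) : Q̄[X] →ₐ[Q̄] modularFunctionFieldBar N).toRingHom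
      = evSer (coeffMap A.subtype (x : LaurentSeries A)) := by
  apply Polynomial.ringHom_ext
  · intro a
    simp only [RingHom.comp_apply, AlgHom.toRingHom_eq_coe, RingHom.coe_coe, aeval_C,
      coe_eval₂RingHom, eval₂_C]
    rw [← algebraMap_Qbar_eq_C]
    rfl
  · simp only [RingHom.comp_apply, AlgHom.toRingHom_eq_coe, RingHom.coe_coe, aeval_X,
      coe_eval₂RingHom, eval₂_X]
    rfl

/-- integrality over `ℚ̄[ι x]` as a monic equation with coefficients in `ℚ̄[X]` -/
theorem exists_monic_of_isIntegral_adjoin (x : IntFun A (residue A) N)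
    (f : modularFunctionFieldBar N)
    (hf : IsIntegral (Algebra.adjoin Q̄ {iotaF A (residue A) N x}) f) :
    ∃ p₀ : Q̄[X][X], p₀.Monic ∧
      eval₂ (evSer (coeffMap A.subtype (x : LaurentSeries A))) (f : LaurentSeries Q̄) p₀ = 0 := by
  classical
  obtain ⟨p, hpm, hp⟩ := hf
  set ψ : Q̄[X] →+* modularFunctionFieldBar N :=
    (aeval (iotaF A (residue A) N x) : Q̄[X] →ₐ[Q̄] modularFunctionFieldBar N).toRingHom with hψ
  set p' : (modularFunctionFieldBar N)[X] :=
    p.map (algebraMap (Algebra.adjoin Q̄ {iotaF A (residue A) N x}) (modularFunctionFieldBar N))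
    with hp'
  have hp'm : p'.Monic := hpm.map _
  have hp'0 : eval f p' = 0 := by rw [hp', eval_map]; exact hp
  have hlift : p' ∈ lifts ψ := by
    rw [lifts_iff_coeff_lifts]
    intro n
    rw [hp', coeff_map]
    have hall : ∀ z ∈ Algebra.adjoin Q̄ {iotaF A (residue A) N x},
        z ∈ (aeval (iotaF A (residue A) N x) : Q̄[X] →ₐ[Q̄] modularFunctionFieldBar N).range := by
      intro z hz
      rw [Algebra.adjoin_singleton_eq_range_aeval] at hz
      exact hz
    obtain ⟨g, hg⟩ := hall _ (p.coeff n).2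
    exact ⟨g, hg⟩
  obtain ⟨p₀, hp₀map, -, hp₀m⟩ := lifts_and_natDegree_eq_and_monic hlift hp'm
  refine ⟨p₀, hp₀m, ?_⟩
  have h1 : eval₂ ψ f p₀ = 0 := by rw [← eval_map, hp₀map]; exact hp'0
  have h2 := congrArg (algebraMap (modularFunctionFieldBar N) (LaurentSeries Q̄)) h1
  rw [hom_eval₂, map_zero, hψ, val_comp_aeval] at h2
  exact h2

end

section Main

variable (N : ℕ) [NeZero N] {ℓ : ℕ} (hℓ : ℓ.Prime) (hℓN : ¬ ℓ ∣ N)
  (A : ValuationSubring Q̄) (hA : A.LiesOverPrime ℓ)

include hℓ hℓN hA

/-- every function of `F` is a quotient of two `A`-integral `q`-series -/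
theorem exists_frac_series (f : modularFunctionFieldBar N) :
    ∃ a c : LaurentSeries A, c ≠ 0 ∧
      (f : LaurentSeries Q̄) * coeffMap A.subtype c = coeffMap A.subtype a := by
  classical
  by_cases hf0 : f = 0
  · refine ⟨0, 1, one_ne_zero, ?_⟩
    rw [hf0, map_zero]
    show (0 : LaurentSeries Q̄) * _ = 0
    rw [zero_mul]
  obtain ⟨c₀, hc₀, y₁, y₂, hy₁, hy₂, hrel⟩ :=
    Fermat.Agent.S37.H568.valueGroupHyp_modular (N := N) (A := A)
      (Fermat.Agent.S37.H448.coreData_residueField N hℓ hℓN A hA) f hf0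
  set s₁ := Fermat.Agent.S37.H940.series A (residue A) (modularFunctionFieldBar N)
    (modularFunctionFieldFullC (ResidueField A) N) y₁ with hs₁
  set s₂ := Fermat.Agent.S37.H940.series A (residue A) (modularFunctionFieldBar N)
    (modularFunctionFieldFullC (ResidueField A) N) y₂ with hs₂
  have e₁ : coeffMap A.subtype s₁ = ((y₁ : modularFunctionFieldBar N) : LaurentSeries Q̄) :=
    Fermat.Agent.S37.H940.coeffMap_series _ _ _ _ y₁
  have e₂ : coeffMap A.subtype s₂ = ((y₂ : modularFunctionFieldBar N) : LaurentSeries Q̄) :=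
    Fermat.Agent.S37.H940.coeffMap_series _ _ _ _ y₂
  have hs₂0 : s₂ ≠ 0 := by
    intro h0
    apply hy₂
    apply Subtype.ext
    rw [Fermat.Agent.S37.H940.coe_redQ A (residue A) _ _ y₂ e₂, h0, map_zero]
    rfl
  -- the relation in `ℚ̄((q))`
  have hrelS : (f : LaurentSeries Q̄) * coeffMap A.subtype s₂
      = HahnSeries.C c₀ * coeffMap A.subtype s₁ := by
    rw [e₁, e₂, ← algebraMap_Qbar_eq_C]
    exact congrArg (algebraMap (modularFunctionFieldBar N) (LaurentSeries Q̄)) hrel
  have hCA : ∀ a : A, coeffMap A.subtype (HahnSeries.C a) = HahnSeries.C (a : Q̄) :=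
    fun a => coeffMap_single A.subtype 0 a
  rcases A.mem_or_inv_mem c₀ with hc | hc
  · refine ⟨HahnSeries.C (⟨c₀, hc⟩ : A) * s₁, s₂, hs₂0, ?_⟩
    rw [map_mul, hCA, hrelS]
  · refine ⟨s₁, HahnSeries.C (⟨c₀⁻¹, hc⟩ : A) * s₂, ?_, ?_⟩
    · refine mul_ne_zero ?_ hs₂0
      intro h0
      have := congrArg (fun z : LaurentSeries A => z.coeff 0) h0
      simp only [HahnSeries.C_apply, HahnSeries.coeff_single_same, HahnSeries.coeff_zero] at this
      exact inv_ne_zero hc₀ (congrArg Subtype.val this)
    · rw [map_mul, hCA, mul_left_comm, hrelS, ← mul_assoc, ← map_mul]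
      show HahnSeries.C (c₀⁻¹ * c₀) * _ = _
      rw [inv_mul_cancel₀ hc₀, map_one, one_mul]

/-- **The scaling hypothesis for the modular charts.** -/
theorem scaling_modular (x : IntFun A (residue A) N) (f : modularFunctionFieldBar N)
    (hf : IsIntegral (Algebra.adjoin Q̄ {iotaF A (residue A) N x}) f) :
    ∃ c : Q̄, c ≠ 0 ∧ ∃ y : IntFun A (residue A) N,
      (evSer (x : LaurentSeries A)).IsIntegralElem (y : LaurentSeries A) ∧
      iotaF A (residue A) N y = algebraMap Q̄ (modularFunctionFieldBar N) c * f := by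
  classical
  obtain ⟨p₀, hp₀m, hp₀⟩ := exists_monic_of_isIntegral_adjoin N A x f hf
  obtain ⟨b, hb0, P, hPm, hP⟩ :=
    exists_scaled_integral A (x : LaurentSeries A) (f : LaurentSeries Q̄) p₀ hp₀m hp₀
  set f' : LaurentSeries Q̄ := HahnSeries.C (b : Q̄) * (f : LaurentSeries Q̄) with hf'
  have hinj : Function.Injective (coeffMap A.subtype) :=
    Fermat.Agent.S37.H459.LaurentCIC.coeffMap_injective_of_injective Subtype.val_injective
  -- `f'` is integral over `A((q))`
  have hint : IsIntegral (coeffMap A.subtype).range f' := by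
    set φ : A[X] →+* (coeffMap A.subtype).range :=
      ((coeffMap A.subtype).comp (evSer (x : LaurentSeries A))).codRestrict _
        (fun H => ⟨evSer (x : LaurentSeries A) H, rfl⟩) with hφ
    refine ⟨P.map φ, hPm.map φ, ?_⟩
    rw [eval₂_map]
    exact hP
  -- `f'` is a quotient of integral series
  obtain ⟨a, c, hc, hfrac⟩ := exists_frac_series N hℓ hℓN A hA f
  have hfrac' : f' * coeffMap A.subtype c
      = coeffMap A.subtype (HahnSeries.C b * a) := by
    rw [hf', mul_assoc, hfrac, map_mul]
    congr 1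
    exact (coeffMap_single A.subtype 0 b).symm
  obtain ⟨y, hy⟩ := Fermat.Agent.S37.H459.LaurentCIC.exists_coeffMap_eq_of_isIntegral
    Subtype.val_injective (isCIC_of_liesOverPrime hℓ.ne_zero A hA) f' (HahnSeries.C b * a) c hc
    hfrac' hint
  -- `y` is an integral modular function
  have hyF : coeffMap A.subtype y ∈ modularFunctionFieldBar N := by
    rw [hy, hf', ← algebraMap_Qbar_eq_C]
    exact mul_mem (IntermediateField.algebraMap_mem _ _) f.2
  have hyk : coeffMap (residue A) y ∈ modularFunctionFieldFullC (ResidueField A) N :=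
    Fermat.Agent.S37.H448.reduction_mem_fullC N hℓ hℓN A hA y hyF
  refine ⟨(b : Q̄), fun h0 => hb0 (Subtype.ext h0), ⟨y, hyF, hyk⟩, ⟨P, hPm, ?_⟩, ?_⟩
  · apply hinj
    rw [hom_eval₂, map_zero, hy]
    exact hP
  · apply Subtype.ext
    rw [coe_iotaF]
    show coeffMap A.subtype y = _
    rw [hy, hf', ← algebraMap_Qbar_eq_C]
    rfl

/-- the scaling hypothesis `hSC` of `P_unif_of_scaling` / `P_sep_of_scaling` for any chart
algebra containing the elements integral over `A[x]` -/
theorem hSC_modular (x : IntFun A (residue A) N) (B : Subalgebra A (IntFun A (residue A) N))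
    (hB : ∀ y : IntFun A (residue A) N,
      (evSer (x : LaurentSeries A)).IsIntegralElem (y : LaurentSeries A) → y ∈ B) :
    ∀ f : modularFunctionFieldBar N,
      IsIntegral (Algebra.adjoin Q̄ {iotaF A (residue A) N x}) f →
        ∃ c : Q̄, c ≠ 0 ∧ ∃ b ∈ B, iotaF A (residue A) N b
          = algebraMap Q̄ (modularFunctionFieldBar N) c * f := by
  intro f hf
  obtain ⟨c, hc, y, hy, hyf⟩ := scaling_modular N hℓ hℓN A hA x f hf
  exact ⟨c, hc, y, hB y hy, hyf⟩

/-- **Field `P_unif` of `H518.Chart` for the modular charts.** -/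
theorem P_unif_modular (x : IntFun A (residue A) N) (B : Subalgebra A (IntFun A (residue A) N))
    (hxB : x ∈ B)
    (hB : ∀ y : IntFun A (residue A) N,
      (evSer (x : LaurentSeries A)).IsIntegralElem (y : LaurentSeries A) → y ∈ B)
    (hxt : Transcendental Q̄ (iotaF A (residue A) N x))
    (hfin : FiniteDimensional (IntermediateField.adjoin Q̄ {iotaF A (residue A) N x})
      (modularFunctionFieldBar N))
    (P : Place Q̄ (modularFunctionFieldBar N)) (hP : PC (iotaF A (residue A) N) B P) :
    ∃ w ∈ B, P.ord (iotaF A (residue A) N w) = 1 :=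
  P_unif_of_scaling hxB hxt hfin (hSC_modular N hℓ hℓN A hA x B hB) P hP

/-- **Field `P_sep` of `H518.Chart` for the modular charts.** -/
theorem P_sep_modular (x : IntFun A (residue A) N) (B : Subalgebra A (IntFun A (residue A) N))
    (hxB : x ∈ B)
    (hB : ∀ y : IntFun A (residue A) N,
      (evSer (x : LaurentSeries A)).IsIntegralElem (y : LaurentSeries A) → y ∈ B)
    (hxt : Transcendental Q̄ (iotaF A (residue A) N x))
    (hfin : FiniteDimensional (IntermediateField.adjoin Q̄ {iotaF A (residue A) N x})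
      (modularFunctionFieldBar N))
    (P P' : Place Q̄ (modularFunctionFieldBar N)) (hP : PC (iotaF A (residue A) N) B P)
    (hP' : PC (iotaF A (residue A) N) B P') (hne : P ≠ P') :
    ∃ s ∈ B, ¬ Fermat.Agent.S24.H504.InMax P (iotaF A (residue A) N s) ∧
      Fermat.Agent.S24.H504.InMax P' (iotaF A (residue A) N s) :=
  P_sep_of_scaling hxB hxt hfin (hSC_modular N hℓ hℓN A hA x B hB) P P' hP hP' hne

end Main

end Fermat.Agent.S37.H459
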